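import Mathlib

/-!
# Unimodularity of `GL₂(ℂ)` — core (helper8), Mathlib only

* `modChar_eq_one_of_central8`, `modChar_eq_one_of_comm8`, `modChar_eq_one_of_pow8`: the modular
  character of a locally compact group is trivial on central elements, on commutators (in the form
  `c * b * a = a * b`) and on elements of finite order;
* `rightInv_of_modChar8`: if the modular character is trivial, every Haar measure (second countable
  group) is right invariant and inversion invariant;
* `modChar_GL2C8`: the modular character of `GL₂(ℂ)` is trivial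
  (`g = n(x) diag(p, q) w n(y)` or `g = diag(p, q) n(y)`; `n(x) = [diag(2,1), n(x)]`,
  `diag(p, q) = z · diag(t, t⁻¹)` with `z² = p q`, `diag(t, t⁻¹) = [diag(t,1), w]`, `w⁴ = 1`);
* `rightInv_GL2C8`: every Haar measure of `GL₂(ℂ)` is right invariant and inversion invariant.
-/

set_option autoImplicit false
set_option linter.style.haveILetI false
set_option linter.unnecessarySeqFocus false

open MeasureTheory MeasureTheory.Measure
open scoped NNReal ENNReal

noncomputable section

namespace Fermat.Agent.LT.T6.H8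

/-! ## 1. The modular character -/

section General

variable {G : Type*} [TopologicalSpace G] [Group G] [IsTopologicalGroup G] [LocallyCompactSpace G]

/-- The modular character is trivial on central elements. -/
theorem modChar_eq_one_of_central8 (z : G) (hz : ∀ g : G, g * z = z * g) :
    modularCharacterFun z = 1 := by
  borelize G
  rw [modularCharacterFun_eq_haarScalarFactor (haar : Measure G) z]
  have h : map (fun x => x * z) (haar : Measure G) = haar := by
    have h1 : (fun x : G => x * z) = fun x => z * x := funext fun x => hz x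
    rw [h1]
    exact map_mul_left_eq_self haar z
  have key : ∀ (ν : Measure G) [IsFiniteMeasureOnCompacts ν] [IsMulLeftInvariant ν],
      ν = (haar : Measure G) → haarScalarFactor ν (haar : Measure G) = 1 := by
    intro ν _ _ hν
    subst hν
    exact haarScalarFactor_self _
  exact key _ h

/-- The modular character is trivial on commutators: `c = a b a⁻¹ b⁻¹`, written `c b a = a b`. -/
theorem modChar_eq_one_of_comm8 (a b c : G) (h : c * b * a = a * b) :
    modularCharacterFun c = 1 := by
  have h1 := congrArg (modularCharacterFun (G := G)) h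
  rw [modularCharacterFun_map_mul, modularCharacterFun_map_mul, modularCharacterFun_map_mul] at h1
  have ha : modularCharacterFun a ≠ 0 := (modularCharacterFun_pos a).ne'
  have hb : modularCharacterFun b ≠ 0 := (modularCharacterFun_pos b).ne'
  have h2 : modularCharacterFun c * (modularCharacterFun b * modularCharacterFun a)
      = 1 * (modularCharacterFun b * modularCharacterFun a) := by
    rw [one_mul, ← mul_assoc, h1, mul_comm]
  exact mul_right_cancel₀ (mul_ne_zero hb ha) h2

/-- The modular character is trivial on elements of finite order. -/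
theorem modChar_eq_one_of_pow8 (w : G) (n : ℕ) (hn : n ≠ 0) (h : w ^ n = 1) :
    modularCharacterFun w = 1 := by
  have h1 : (modularCharacter (G := G)) w ^ n = 1 := by
    rw [← map_pow, h, map_one]
  exact (pow_eq_one_iff_of_nonneg zero_le hn).mp h1

/-- If the modular character is trivial, every Haar measure is right invariant and inversion
invariant. -/
theorem rightInv_of_modChar8 [T2Space G] [SecondCountableTopology G] [MeasurableSpace G]
    [BorelSpace G] (h : ∀ g : G, modularCharacterFun g = 1) (μ : Measure G) [IsHaarMeasure μ] :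
    (∀ g : G, map (fun x => x * g) μ = μ) ∧ map (fun x : G => x⁻¹) μ = μ := by
  have hright : ∀ g : G, map (fun x => x * g) μ = μ := by
    intro g
    have h1 := map_right_mul_eq_modularCharacterFun_smul μ g
    rw [h g, one_smul] at h1
    exact h1
  refine ⟨hright, ?_⟩
  haveI : IsMulRightInvariant μ := ⟨hright⟩
  -- the image measure is left invariant: it is `c μ`, and `c² = 1`
  let c : ℝ≥0∞ := haarScalarFactor μ.inv μ
  have hc : μ.inv = c • μ := isMulLeftInvariant_eq_smul_of_innerRegular μ.inv μ
  have h2 : map Inv.inv (map Inv.inv μ) = c ^ 2 • μ := by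
    rw [← inv_def μ, hc, Measure.map_smul, ← inv_def μ, hc, smul_smul, pow_two]
  have μeq : μ = c ^ 2 • μ := by
    rw [map_map continuous_inv.measurable continuous_inv.measurable] at h2
    simpa only [inv_involutive, Function.Involutive.comp_self, Measure.map_id] using h2
  have K : TopologicalSpace.PositiveCompacts G := Classical.arbitrary _
  have h3 : c ^ 2 * μ K = 1 ^ 2 * μ K := by
    conv_rhs => rw [μeq]
    simp
  have h4 : c ^ 2 = 1 ^ 2 :=
    (ENNReal.mul_left_inj (measure_pos_of_nonempty_interior _ K.interior_nonempty).ne'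
          K.isCompact.measure_lt_top.ne).1 h3
  have h5 : c = 1 := (ENNReal.pow_right_strictMono two_ne_zero).injective h4
  have h6 : μ.inv = μ := by rw [hc, h5, one_smul]
  exact h6

end General

/-! ## 2. The topology of `GL₂(ℂ)` -/

theorem locallyCompactSpace_GL2C8 : LocallyCompactSpace (GL (Fin 2) ℂ) := by
  have : LocallyCompactSpace (Matrix (Fin 2) (Fin 2) ℂ) :=
    inferInstanceAs (LocallyCompactSpace (Fin 2 → Fin 2 → ℂ))
  have : T2Space (Matrix (Fin 2) (Fin 2) ℂ) := inferInstanceAs (T2Space (Fin 2 → Fin 2 → ℂ))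
  infer_instance

theorem secondCountableTopology_GL2C8 : SecondCountableTopology (GL (Fin 2) ℂ) := by
  have : SecondCountableTopology (Matrix (Fin 2) (Fin 2) ℂ) :=
    inferInstanceAs (SecondCountableTopology (Fin 2 → Fin 2 → ℂ))
  have : SecondCountableTopology (Matrix (Fin 2) (Fin 2) ℂ)ᵐᵒᵖ :=
    (MulOpposite.opHomeomorph (M := Matrix (Fin 2) (Fin 2) ℂ)).symm.isEmbedding.secondCountableTopology
  exact Units.isEmbedding_embedProduct.secondCountableTopology

/-! ## 3. The elements -/

/-- `n(x) = [[1, x], [0, 1]]`. -/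
def nU8 (x : ℂ) : GL (Fin 2) ℂ :=
  Matrix.GeneralLinearGroup.mkOfDetNeZero !![1, x; 0, 1] (by simp [Matrix.det_fin_two])

/-- `diag(p, q)`. -/
def dg8 (p q : ℂ) (hp : p ≠ 0) (hq : q ≠ 0) : GL (Fin 2) ℂ :=
  Matrix.GeneralLinearGroup.mkOfDetNeZero !![p, 0; 0, q] (by simp [Matrix.det_fin_two, hp, hq])

/-- `w = [[0, -1], [1, 0]]`. -/
def wE8 : GL (Fin 2) ℂ :=
  Matrix.GeneralLinearGroup.mkOfDetNeZero !![0, -1; 1, 0] (by simp [Matrix.det_fin_two])

theorem nU8_val (x : ℂ) : (nU8 x : Matrix (Fin 2) (Fin 2) ℂ) = !![1, x; 0, 1] := rfl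

theorem dg8_val (p q : ℂ) (hp : p ≠ 0) (hq : q ≠ 0) :
    (dg8 p q hp hq : Matrix (Fin 2) (Fin 2) ℂ) = !![p, 0; 0, q] := rfl

theorem wE8_val : (wE8 : Matrix (Fin 2) (Fin 2) ℂ) = !![0, -1; 1, 0] := rfl

section Elements

attribute [local instance] locallyCompactSpace_GL2C8

theorem modChar_nU8 (x : ℂ) : modularCharacterFun (nU8 x) = 1 := by
  refine modChar_eq_one_of_comm8 (dg8 2 1 two_ne_zero one_ne_zero) (nU8 x) (nU8 x) ?_
  apply Units.ext
  simp only [Units.val_mul, nU8_val, dg8_val]
  ext i j
  fin_cases i <;> fin_cases j <;> simp [Matrix.mul_apply, Fin.sum_univ_two] <;> (try ring)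

theorem modChar_wE8 : modularCharacterFun wE8 = 1 := by
  refine modChar_eq_one_of_pow8 wE8 4 (by norm_num) ?_
  apply Units.ext
  have h4 : (wE8 ^ 4 : GL (Fin 2) ℂ) = wE8 * wE8 * (wE8 * wE8) := by
    rw [show (4 : ℕ) = 2 + 2 from rfl, pow_add, pow_two]
  rw [h4]
  simp only [Units.val_mul, wE8_val, Units.val_one]
  ext i j
  fin_cases i <;> fin_cases j <;> simp [Matrix.mul_apply, Fin.sum_univ_two]

theorem modChar_dgInv8 (t : ℂ) (ht : t ≠ 0) :
    modularCharacterFun (dg8 t t⁻¹ ht (inv_ne_zero ht)) = 1 := by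
  refine modChar_eq_one_of_comm8 (dg8 t 1 ht one_ne_zero) wE8 _ ?_
  apply Units.ext
  simp only [Units.val_mul, wE8_val, dg8_val]
  ext i j
  fin_cases i <;> fin_cases j <;> simp [Matrix.mul_apply, Fin.sum_univ_two, ht]

theorem modChar_scalar8 (z : ℂ) (hz : z ≠ 0) : modularCharacterFun (dg8 z z hz hz) = 1 := by
  refine modChar_eq_one_of_central8 _ fun g => ?_
  apply Units.ext
  simp only [Units.val_mul, dg8_val]
  ext i j
  fin_cases i <;> fin_cases j <;> simp [Matrix.mul_apply, Fin.sum_univ_two, mul_comm]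

theorem modChar_dg8 (p q : ℂ) (hp : p ≠ 0) (hq : q ≠ 0) :
    modularCharacterFun (dg8 p q hp hq) = 1 := by
  obtain ⟨z, hz⟩ : ∃ z : ℂ, z ^ 2 = p * q := IsAlgClosed.exists_pow_nat_eq (p * q) (by norm_num)
  have hz0 : z ≠ 0 := by
    rintro rfl
    have : (0 : ℂ) = p * q := by simpa using hz
    exact mul_ne_zero hp hq this.symm
  have ht : p / z ≠ 0 := div_ne_zero hp hz0
  have hdec : dg8 p q hp hq = dg8 z z hz0 hz0 * dg8 (p / z) (p / z)⁻¹ ht (inv_ne_zero ht) := by
    apply Units.ext
    simp only [Units.val_mul, dg8_val]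
    ext i j
    fin_cases i <;> fin_cases j <;> simp [Matrix.mul_apply, Fin.sum_univ_two]
    · field_simp
    · field_simp
      rw [hz, mul_comm]
  rw [hdec, modularCharacterFun_map_mul, modChar_scalar8, modChar_dgInv8, one_mul]

/-- **The modular character of `GL₂(ℂ)` is trivial.** -/
theorem modChar_GL2C8 (g : GL (Fin 2) ℂ) : modularCharacterFun g = 1 := by
  have hdet : (g : Matrix (Fin 2) (Fin 2) ℂ).det ≠ 0 := by
    have := g.isUnit
    exact (Matrix.isUnit_iff_isUnit_det _).mp this |>.ne_zero
  rw [Matrix.det_fin_two] at hdet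
  set a := (g : Matrix (Fin 2) (Fin 2) ℂ) 0 0 with ha
  set b := (g : Matrix (Fin 2) (Fin 2) ℂ) 0 1 with hb
  set c := (g : Matrix (Fin 2) (Fin 2) ℂ) 1 0 with hc
  set d := (g : Matrix (Fin 2) (Fin 2) ℂ) 1 1 with hd
  have hg : (g : Matrix (Fin 2) (Fin 2) ℂ) = !![a, b; c, d] := by
    ext i j
    fin_cases i <;> fin_cases j <;> rfl
  by_cases hc0 : c = 0
  · -- upper triangular
    rw [hc0, mul_zero, sub_zero] at hdet
    have ha0 : a ≠ 0 := left_ne_zero_of_mul hdet
    have hd0 : d ≠ 0 := right_ne_zero_of_mul hdet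
    have hdec : g = dg8 a d ha0 hd0 * nU8 (b / a) := by
      apply Units.ext
      simp only [Units.val_mul, dg8_val, nU8_val]
      rw [hg, hc0]
      ext i j
      fin_cases i <;> fin_cases j <;> simp [Matrix.mul_apply, Fin.sum_univ_two]
      field_simp
    rw [hdec, modularCharacterFun_map_mul, modChar_dg8, modChar_nU8, one_mul]
  · have hp : (a * d - b * c) / c ≠ 0 := div_ne_zero hdet hc0
    have hdec : g = nU8 (a / c) * dg8 ((a * d - b * c) / c) c hp hc0 * wE8 * nU8 (d / c) := by
      apply Units.ext
      simp only [Units.val_mul, dg8_val, nU8_val, wE8_val]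
      rw [hg]
      ext i j
      fin_cases i <;> fin_cases j <;> simp [Matrix.mul_apply, Fin.sum_univ_two] <;>
        (try field_simp) <;> (try ring)
    rw [hdec, modularCharacterFun_map_mul, modularCharacterFun_map_mul,
      modularCharacterFun_map_mul, modChar_dg8, modChar_nU8, modChar_nU8, modChar_wE8]
    simp

end Elements

/-! ## 4. Haar measures of `GL₂(ℂ)` -/

/-- **Every Haar measure of `GL₂(ℂ)` is right invariant and inversion invariant.** -/
theorem rightInv_GL2C8 [MeasurableSpace (GL (Fin 2) ℂ)] [BorelSpace (GL (Fin 2) ℂ)]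
    (μ : Measure (GL (Fin 2) ℂ)) [IsHaarMeasure μ] :
    (∀ g : GL (Fin 2) ℂ, map (fun x => x * g) μ = μ) ∧
      map (fun x : GL (Fin 2) ℂ => x⁻¹) μ = μ := by
  haveI := locallyCompactSpace_GL2C8
  haveI := secondCountableTopology_GL2C8
  exact rightInv_of_modChar8 modChar_GL2C8 μ

end Fermat.Agent.LT.T6.H8

end
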