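import Mathlib
import Fermat.Agent.LT.T6.H189.ArchIntSpec
import Fermat.Agent.LT.T6.H8.Unimod

/-!
# Row LT, tower T6, leaf T6.23.02 `RightInvCC` (`GL₂(ℂ)` is unimodular) — helper8, OFF-MAIN

`rightInvCC_h8 : Fermat.Agent.LT.T6.H189.RightInvCC`, VERBATIM the Prop of
`LT/T6/H189/ArchIntSpec.lean` (helper189@45580d1ec, sha256 4ac6c090).  The proof is in
`Unimod.lean` (Mathlib only): the modular character of `GL₂(ℂ)` is trivial.
-/

set_option autoImplicit false
set_option linter.style.haveILetI false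

open MeasureTheory

namespace Fermat.Agent.LT.T6.H8

/-- **T6.23.02.**  Every Haar measure of `GL₂(ℂ)` is right invariant and inversion invariant. -/
theorem rightInvCC_h8 : Fermat.Agent.LT.T6.H189.RightInvCC := by
  letI : MeasurableSpace (GL (Fin 2) ℂ) := borel _
  haveI : BorelSpace (GL (Fin 2) ℂ) := ⟨rfl⟩
  intro μ hμ
  haveI := hμ
  exact rightInv_GL2C8 μ

end Fermat.Agent.LT.T6.H8
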